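/-
GATE-J27 / A5 (GJ27-LMAT), part 3 (helper96).  Mathlib only.

Companion matrices: every monic polynomial `g` over a commutative ring is the characteristic
polynomial of a square matrix of size `natDegree g` (multiplication by the root on
`AdjoinRoot g` in the power basis); and every polynomial `L` with `L(0) = 1` is `det (1 - X M)`.
-/
import Mathlib

set_option autoImplicit false

open Polynomial Matrix

namespace Fermat.Agent.GJ27.LMat.Companion

variable {R : Type*} [CommRing R]

theorem minpoly_root_of_monic {g : R[X]} (hg : g.Monic) :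
    minpoly R (AdjoinRoot.root g) = g := by
  symm
  refine minpoly.unique' R _ hg ?_ fun q hq => ?_
  · rw [AdjoinRoot.aeval_eq, AdjoinRoot.mk_self]
  · by_cases hq0 : q = 0
    · exact Or.inl hq0
    · right
      rw [AdjoinRoot.aeval_eq]
      intro h
      rw [AdjoinRoot.mk_eq_zero] at h
      exact hg.not_dvd_of_degree_lt hq0 hq h

/-- a companion matrix. -/
theorem exists_matrix_charpoly_eq {g : R[X]} (hg : g.Monic) :
    ∃ (d : ℕ) (M : Matrix (Fin d) (Fin d) R), d = g.natDegree ∧ M.charpoly = g := by
  refine ⟨(AdjoinRoot.powerBasis' hg).dim,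
    Algebra.leftMulMatrix (AdjoinRoot.powerBasis' hg).basis (AdjoinRoot.powerBasis' hg).gen,
    AdjoinRoot.powerBasis'_dim hg, ?_⟩
  rw [charpoly_leftMulMatrix, AdjoinRoot.powerBasis'_gen, minpoly_root_of_monic hg]

/-- every polynomial with constant term `1` is `det (1 - X M)`. -/
theorem exists_matrix_charpolyRev_eq [Nontrivial R] {L : R[X]} (hL : L.coeff 0 = 1) :
    ∃ (d : ℕ) (M : Matrix (Fin d) (Fin d) R), d = L.natDegree ∧
      M.charpolyRev = L ∧ M.det = (-1) ^ d * L.leadingCoeff := by
  have hL0 : L.coeff 0 ≠ 0 := by rw [hL]; exact one_ne_zero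
  have htr : L.natTrailingDegree = 0 := Polynomial.natTrailingDegree_eq_zero.mpr (Or.inr hL0)
  have hdeg : L.reverse.natDegree = L.natDegree := by
    rw [Polynomial.reverse_natDegree, htr, Nat.sub_zero]
  have hmonic : L.reverse.Monic := by
    rw [Polynomial.Monic, Polynomial.reverse_leadingCoeff, Polynomial.trailingCoeff, htr, hL]
  obtain ⟨d, M, hd, hM⟩ := exists_matrix_charpoly_eq hmonic
  refine ⟨d, M, hd.trans hdeg, ?_, ?_⟩
  · rw [← Matrix.reverse_charpoly, hM]
    show Polynomial.reflect L.reverse.natDegree L.reverse = L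
    rw [hdeg]
    show Polynomial.reflect L.natDegree (Polynomial.reflect L.natDegree L) = L
    exact Polynomial.reflect_reflect
  · rw [Matrix.det_eq_sign_charpoly_coeff, hM, Fintype.card_fin, Polynomial.coeff_zero_reverse]

end Fermat.Agent.GJ27.LMat.Companion
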