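/-
GATE-J27 / A5 (GJ27-LMAT), part 4 (helper96).  Mathlib only.

`ℓ`-adic growth of `det (1 - U ^ n)` for an integer matrix `U ≡ 1 (mod ℓ²)`:
`det (1 - U ^ (m ℓ^j)) = ℓ^(d j) · w · det (1 - U)` with `ℓ ∤ w`, for every `m` prime to `ℓ`
(`d` the size); and every integer matrix with determinant prime to `ℓ` has a power `≡ 1 (mod ℓ²)`.
-/
import Mathlib

set_option autoImplicit false
set_option linter.unusedSectionVars false

open Matrix Finset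

namespace Fermat.Agent.GJ27.LMat.Growth

variable {n : Type*} [Fintype n] [DecidableEq n]

/-- `U ≡ 1 (mod c)`, entrywise. -/
def CongrOne (c : ℤ) (U : Matrix n n ℤ) : Prop := ∃ B : Matrix n n ℤ, U = 1 + c • B

theorem CongrOne.mul {c : ℤ} {U V : Matrix n n ℤ} (hU : CongrOne c U) (hV : CongrOne c V) :
    CongrOne c (U * V) := by
  obtain ⟨B, rfl⟩ := hU
  obtain ⟨B', rfl⟩ := hV
  refine ⟨B + B' + c • (B * B'), ?_⟩
  rw [Matrix.add_mul, Matrix.mul_add, Matrix.mul_add, Matrix.one_mul, Matrix.one_mul,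
    Matrix.mul_one, Matrix.smul_mul, Matrix.mul_smul, smul_add, smul_add]
  abel

theorem CongrOne.one (c : ℤ) : CongrOne c (1 : Matrix n n ℤ) := ⟨0, by simp⟩

theorem CongrOne.pow {c : ℤ} {U : Matrix n n ℤ} (hU : CongrOne c U) (i : ℕ) :
    CongrOne c (U ^ i) := by
  induction i with
  | zero => rw [pow_zero]; exact CongrOne.one c
  | succ i ih => rw [pow_succ]; exact ih.mul hU

/-- `∑_{i<m} U^i ≡ m (mod c)`. -/
theorem CongrOne.geom_sum {c : ℤ} {U : Matrix n n ℤ} (hU : CongrOne c U) (m : ℕ) :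
    ∃ B : Matrix n n ℤ, ∑ i ∈ range m, U ^ i = (m : ℤ) • (1 : Matrix n n ℤ) + c • B := by
  induction m with
  | zero => exact ⟨0, by simp⟩
  | succ m ih =>
    obtain ⟨B, hB⟩ := ih
    obtain ⟨B', hB'⟩ := hU.pow m
    refine ⟨B + B', ?_⟩
    rw [Finset.sum_range_succ, hB, hB', Nat.cast_succ, add_smul, one_smul, smul_add]
    abel

/-- the determinant of `a + ℓ B` is `≡ a ^ d (mod ℓ)`. -/
theorem det_scalar_add_smul (ℓ : ℕ) (a : ℤ) (B : Matrix n n ℤ) :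
    ∃ z : ℤ, (a • (1 : Matrix n n ℤ) + (ℓ : ℤ) • B).det = a ^ Fintype.card n + ℓ * z := by
  set A : Matrix n n ℤ := a • (1 : Matrix n n ℤ) + (ℓ : ℤ) • B with hA
  have hmat : (Int.castRingHom (ZMod ℓ)).mapMatrix A =
      ((a : ZMod ℓ)) • (1 : Matrix n n (ZMod ℓ)) := by
    ext i j
    rw [RingHom.mapMatrix_apply, Matrix.map_apply, hA, Matrix.add_apply, Matrix.smul_apply,
      Matrix.smul_apply, Matrix.smul_apply, smul_eq_mul, smul_eq_mul, smul_eq_mul,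
      Matrix.one_apply, Matrix.one_apply]
    split_ifs
    · simp
    · simp
  have h1 : (Int.castRingHom (ZMod ℓ)) A.det = (a : ZMod ℓ) ^ Fintype.card n := by
    rw [RingHom.map_det, hmat, Matrix.det_smul, Matrix.det_one, mul_one]
  have h2 : (((A.det - a ^ Fintype.card n : ℤ)) : ZMod ℓ) = 0 := by
    rw [Int.cast_sub, Int.cast_pow]
    rw [eq_intCast] at h1
    rw [h1, sub_self]
  obtain ⟨z, hz⟩ := (ZMod.intCast_zmod_eq_zero_iff_dvd _ ℓ).mp h2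
  exact ⟨z, by linarith⟩

/-- a determinant `≡ a ^ d (mod ℓ)` with `ℓ ∤ a` is prime to `ℓ`. -/
theorem not_dvd_det_scalar_add_smul {ℓ : ℕ} (hℓ : ℓ.Prime) {a : ℤ} (ha : ¬ (ℓ : ℤ) ∣ a)
    (B : Matrix n n ℤ) : ¬ (ℓ : ℤ) ∣ (a • (1 : Matrix n n ℤ) + (ℓ : ℤ) • B).det := by
  obtain ⟨z, hz⟩ := det_scalar_add_smul ℓ a B
  rw [hz]
  intro h
  have h2 : (ℓ : ℤ) ∣ a ^ Fintype.card n := by
    have := dvd_sub h (dvd_mul_right (ℓ : ℤ) z)
    simpa using this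
  exact ha ((Nat.prime_iff_prime_int.mp hℓ).dvd_of_dvd_pow h2)

/-- **prime-to-`ℓ` step**: `det (1 - U ^ m) = w · det (1 - U)` with `ℓ ∤ w`. -/
theorem det_one_sub_pow_coprime {ℓ : ℕ} (hℓ : ℓ.Prime) {U : Matrix n n ℤ}
    (hU : CongrOne (ℓ : ℤ) U) {m : ℕ} (hm : ¬ ℓ ∣ m) :
    ∃ w : ℤ, ¬ (ℓ : ℤ) ∣ w ∧ (1 - U ^ m).det = w * (1 - U).det := by
  obtain ⟨B, hB⟩ := hU.geom_sum m
  refine ⟨(∑ i ∈ range m, U ^ i).det, ?_, ?_⟩
  · rw [hB]
    exact not_dvd_det_scalar_add_smul hℓ (by exact_mod_cast hm) B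
  · rw [← mul_neg_geom_sum U m, Matrix.det_mul, mul_comm]

/-- **`ℓ`-step**: for `U ≡ 1 (mod ℓ²)`, `det (1 - U ^ ℓ) = ℓ ^ d · w · det (1 - U)` with `ℓ ∤ w`. -/
theorem det_one_sub_pow_prime {ℓ : ℕ} (hℓ : ℓ.Prime) {U : Matrix n n ℤ}
    (hU : CongrOne ((ℓ : ℤ) ^ 2) U) :
    ∃ w : ℤ, ¬ (ℓ : ℤ) ∣ w ∧
      (1 - U ^ ℓ).det = (ℓ : ℤ) ^ Fintype.card n * w * (1 - U).det := by
  obtain ⟨B, hB⟩ := hU.geom_sum ℓ
  have hsum : ∑ i ∈ range ℓ, U ^ i =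
      (ℓ : ℤ) • ((1 : ℤ) • (1 : Matrix n n ℤ) + (ℓ : ℤ) • B) := by
    rw [hB, smul_add, one_smul, smul_smul, pow_two]
  refine ⟨((1 : ℤ) • (1 : Matrix n n ℤ) + (ℓ : ℤ) • B).det, ?_, ?_⟩
  · refine not_dvd_det_scalar_add_smul hℓ ?_ B
    intro h
    have := Int.natAbs_dvd_natAbs.mpr h
    simp only [Int.natAbs_natCast, Int.natAbs_one, Nat.dvd_one] at this
    exact hℓ.one_lt.ne' this
  · rw [← mul_neg_geom_sum U ℓ, Matrix.det_mul, hsum, Matrix.det_smul]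
    ring

theorem CongrOne.of_sq {ℓ : ℤ} {U : Matrix n n ℤ} (hU : CongrOne (ℓ ^ 2) U) : CongrOne ℓ U := by
  obtain ⟨B, rfl⟩ := hU
  exact ⟨ℓ • B, by rw [smul_smul, pow_two]⟩

/-- **`ℓ`-adic growth.** For `U ≡ 1 (mod ℓ²)`, `m` prime to `ℓ` and every `j`:
`det (1 - U ^ (m ℓ^j)) = ℓ ^ (d j) · w · det (1 - U)` with `ℓ ∤ w`. -/
theorem det_one_sub_pow_growth {ℓ : ℕ} (hℓ : ℓ.Prime) {U : Matrix n n ℤ}
    (hU : CongrOne ((ℓ : ℤ) ^ 2) U) {m : ℕ} (hm : ¬ ℓ ∣ m) (j : ℕ) :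
    ∃ w : ℤ, ¬ (ℓ : ℤ) ∣ w ∧
      (1 - U ^ (m * ℓ ^ j)).det = (ℓ : ℤ) ^ (Fintype.card n * j) * w * (1 - U).det := by
  have hp : Prime (ℓ : ℤ) := Nat.prime_iff_prime_int.mp hℓ
  induction j with
  | zero =>
    obtain ⟨w, hw, h⟩ := det_one_sub_pow_coprime hℓ hU.of_sq hm
    exact ⟨w, hw, by rw [pow_zero, mul_one, h, Nat.mul_zero, pow_zero, one_mul]⟩
  | succ j ih =>
    obtain ⟨w, hw, h⟩ := ih
    obtain ⟨w', hw', h'⟩ := det_one_sub_pow_prime hℓ (hU.pow (m * ℓ ^ j))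
    refine ⟨w' * w, fun hd => ?_, ?_⟩
    · rcases hp.dvd_or_dvd hd with h1 | h1
      · exact hw' h1
      · exact hw h1
    · rw [pow_succ, ← mul_assoc, pow_mul, h', h, Nat.mul_succ, pow_add]
      ring

/-- a matrix which is the identity modulo `N` is `≡ 1 (mod N)`. -/
theorem congrOne_of_map_eq_one {N : ℕ} {U : Matrix n n ℤ}
    (h : (Int.castRingHom (ZMod N)).mapMatrix U = 1) : CongrOne (N : ℤ) U := by
  have hdvd : ∀ i j, (N : ℤ) ∣ (U - 1) i j := by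
    intro i j
    rw [← ZMod.intCast_zmod_eq_zero_iff_dvd]
    have := congrFun (congrFun h i) j
    rw [RingHom.mapMatrix_apply, Matrix.map_apply] at this
    rw [Matrix.sub_apply, Int.cast_sub]
    simp only [eq_intCast] at this
    rw [this, Matrix.one_apply, Matrix.one_apply]
    split_ifs <;> simp
  choose B hB using hdvd
  refine ⟨Matrix.of B, ?_⟩
  ext i j
  have := hB i j
  rw [Matrix.sub_apply] at this
  rw [Matrix.add_apply, Matrix.smul_apply, smul_eq_mul, Matrix.of_apply, ← this]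
  ring

/-- an integer matrix with determinant prime to `ℓ` has a positive power `≡ 1 (mod ℓ²)`. -/
theorem exists_pow_congrOne {ℓ : ℕ} (hℓ : ℓ.Prime) {M : Matrix n n ℤ} (hM : ¬ (ℓ : ℤ) ∣ M.det) :
    ∃ m₀ : ℕ, 0 < m₀ ∧ CongrOne ((ℓ : ℤ) ^ 2) (M ^ m₀) := by
  have hN : NeZero (ℓ ^ 2) := ⟨pow_ne_zero 2 hℓ.ne_zero⟩
  set Mbar := (Int.castRingHom (ZMod (ℓ ^ 2))).mapMatrix M with hMbar
  have hdet : IsUnit Mbar.det := by
    rw [hMbar, ← RingHom.map_det, eq_intCast, ZMod.coe_int_isUnit_iff_isCoprime]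
    push_cast
    refine IsCoprime.pow_left ?_
    exact (Nat.prime_iff_prime_int.mp hℓ).coprime_iff_not_dvd.mpr hM
  have hunit : IsUnit Mbar := (Matrix.isUnit_iff_isUnit_det Mbar).mpr hdet
  obtain ⟨u, hu⟩ := hunit
  have hfin : IsOfFinOrder u := isOfFinOrder_of_finite u
  refine ⟨orderOf u, hfin.orderOf_pos, ?_⟩
  have h1 : Mbar ^ orderOf u = 1 := by
    rw [← hu, ← Units.val_pow_eq_pow_val, pow_orderOf_eq_one, Units.val_one]
  have h2 : (Int.castRingHom (ZMod (ℓ ^ 2))).mapMatrix (M ^ orderOf u) = 1 := by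
    rw [map_pow, ← hMbar, h1]
  have := congrOne_of_map_eq_one h2
  push_cast at this
  exact this

end Fermat.Agent.GJ27.LMat.Growth
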