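/-
GATE-J27 / A5 (GJ27-LMAT), part 1 (helper96).  Mathlib only.

* `derivative_det` : Jacobi's formula for a matrix of polynomials,
  `(det A)' = ∑ i, det (A with column i differentiated) = tr (adj A * A')`;
* `newton_charpolyRev` : Newton's identities for `det (1 - X M)`:
  `(k + 1) c_{k+1} = - ∑_{i + j = k} c_i tr (M ^ (j + 1))`.
-/
import Mathlib

set_option autoImplicit false
set_option linter.unusedSectionVars false

open Polynomial Matrix Finset

namespace Fermat.Agent.GJ27.LMat.Jacobi

variable {R : Type*} [CommRing R] {n : Type*} [Fintype n] [DecidableEq n]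

/-- **Jacobi's formula**, column form. -/
theorem derivative_det (A : Matrix n n R[X]) :
    derivative A.det = ∑ i, (A.updateCol i (fun j => derivative (A j i))).det := by
  classical
  simp only [Matrix.det_apply', map_sum]
  rw [Finset.sum_comm]
  refine Finset.sum_congr rfl fun σ _ => ?_
  rw [derivative_mul, derivative_prod_finset]
  have h0 : derivative ((Equiv.Perm.sign σ : ℤ) : R[X]) = 0 := by
    rw [← Polynomial.C_eq_intCast, derivative_C]
  rw [h0, zero_mul, zero_add, Finset.mul_sum]
  refine Finset.sum_congr rfl fun i _ => ?_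
  have h1 : ∏ j, (A.updateCol i (fun j => derivative (A j i))) (σ j) j =
      (∏ j ∈ univ.erase i, A (σ j) j) * derivative (A (σ i) i) := by
    rw [← Finset.prod_erase_mul univ _ (mem_univ i), Matrix.updateCol_self]
    congr 1
    refine Finset.prod_congr rfl fun j hj => ?_
    rw [Matrix.updateCol_ne (Finset.ne_of_mem_erase hj)]
  rw [h1]

/-- **Jacobi's formula**, trace form. -/
theorem derivative_det_eq_trace (A : Matrix n n R[X]) :
    derivative A.det = (A.adjugate * A.map (derivative (R := R))).trace := by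
  rw [derivative_det, Matrix.trace]
  refine Finset.sum_congr rfl fun i _ => ?_
  rw [← Matrix.cramer_apply, Matrix.cramer_eq_adjugate_mulVec, Matrix.diag_apply,
    Matrix.mul_apply, Matrix.mulVec, dotProduct]
  rfl

/-- the matrix `1 - X M` over `R[X]`. -/
noncomputable def oneSubX (M : Matrix n n R) : Matrix n n R[X] := 1 - (X : R[X]) • M.map C

theorem det_oneSubX (M : Matrix n n R) : (oneSubX M).det = M.charpolyRev := rfl

theorem map_derivative_oneSubX (M : Matrix n n R) :
    (oneSubX M).map (derivative (R := R)) = - M.map C := by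
  ext i j
  simp only [oneSubX, Matrix.map_apply, Matrix.sub_apply, Matrix.smul_apply, smul_eq_mul,
    Matrix.neg_apply, derivative_sub, derivative_mul, derivative_X, derivative_C, one_mul, mul_zero,
    add_zero]
  rw [Matrix.one_apply]
  split_ifs <;> simp

theorem derivative_charpolyRev (M : Matrix n n R) :
    derivative M.charpolyRev = - ((oneSubX M).adjugate * M.map C).trace := by
  rw [← det_oneSubX, derivative_det_eq_trace, map_derivative_oneSubX, Matrix.mul_neg,
    Matrix.trace_neg]

theorem adjugate_oneSubX_eq (M : Matrix n n R) (K : ℕ) :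
    (oneSubX M).adjugate = M.charpolyRev • (∑ m ∈ range K, ((X : R[X]) • M.map C) ^ m) +
      (oneSubX M).adjugate * ((X : R[X]) • M.map C) ^ K := by
  have h1 : oneSubX M * ∑ m ∈ range K, ((X : R[X]) • M.map C) ^ m =
      1 - ((X : R[X]) • M.map C) ^ K := mul_neg_geom_sum _ _
  have h2 : (oneSubX M).adjugate * oneSubX M = M.charpolyRev • (1 : Matrix n n R[X]) := by
    rw [Matrix.adjugate_mul, det_oneSubX]
  have h3 := congrArg (fun Z => (oneSubX M).adjugate * Z) h1
  simp only [← Matrix.mul_assoc, h2, Matrix.mul_sub, Matrix.mul_one, Matrix.smul_mul,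
    Matrix.one_mul] at h3
  rw [h3]
  abel


theorem map_C_pow (M : Matrix n n R) (m : ℕ) : (M.map C) ^ m = (M ^ m).map (C : R →+* R[X]) := by
  rw [← RingHom.mapMatrix_apply, ← RingHom.mapMatrix_apply, map_pow]

theorem trace_map_C (M : Matrix n n R) : (M.map (C : R →+* R[X])).trace = C M.trace := by
  simp [Matrix.trace, map_sum]

theorem trace_smul_pow_mul (M : Matrix n n R) (m : ℕ) :
    ((((X : R[X]) • M.map C) ^ m) * M.map C).trace = X ^ m * C (M ^ (m + 1)).trace := by
  rw [_root_.smul_pow, Matrix.smul_mul, Matrix.trace_smul, smul_eq_mul, ← pow_succ, map_C_pow,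
    trace_map_C]

/-- truncated logarithmic derivative of `det (1 - X M)`. -/
theorem derivative_charpolyRev_trunc (M : Matrix n n R) (K : ℕ) :
    ∃ r : R[X], derivative M.charpolyRev =
      - (M.charpolyRev * ∑ m ∈ range K, X ^ m * C (M ^ (m + 1)).trace) - X ^ K * r := by
  refine ⟨((oneSubX M).adjugate * (M.map C) ^ (K + 1)).trace, ?_⟩
  rw [derivative_charpolyRev]
  conv_lhs => rw [adjugate_oneSubX_eq M K]
  rw [Matrix.add_mul, Matrix.trace_add, Matrix.smul_mul, Matrix.trace_smul, Matrix.sum_mul,
    Matrix.trace_sum, smul_eq_mul]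
  simp only [trace_smul_pow_mul]
  rw [Matrix.mul_assoc, _root_.smul_pow, Matrix.smul_mul, Matrix.mul_smul, Matrix.trace_smul,
    smul_eq_mul, ← pow_succ]
  ring

/-- **Newton's identities** for `det (1 - X M) = ∑ c_k X ^ k`. -/
theorem newton_charpolyRev (M : Matrix n n R) (k : ℕ) :
    M.charpolyRev.coeff (k + 1) * ((k : R) + 1) =
      - ∑ x ∈ antidiagonal k, M.charpolyRev.coeff x.1 * (M ^ (x.2 + 1)).trace := by
  obtain ⟨r, hr⟩ := derivative_charpolyRev_trunc M (k + 1)
  have h := congrArg (fun p => p.coeff k) hr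
  simp only [coeff_derivative, coeff_sub, coeff_neg] at h
  rw [h, coeff_X_pow_mul', if_neg (by omega), sub_zero, coeff_mul]
  congr 1
  refine Finset.sum_congr rfl fun x hx => ?_
  have hx2 : x.2 < k + 1 := by
    have := mem_antidiagonal.mp hx
    omega
  congr 1
  rw [finsetSum_coeff]
  simp only [coeff_X_pow_mul', coeff_C]
  rw [Finset.sum_eq_single x.2]
  · simp
  · intro b _ hb
    split_ifs with h1 h2
    · exact absurd (by omega) hb
    · rfl
    · rfl
  · intro h
    exact absurd (mem_range.mpr hx2) h

end Fermat.Agent.GJ27.LMat.Jacobi
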