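/-
GATE-J27 / A5 (GJ27-LMAT), part 2 (helper96).  Mathlib only.

The abstract Newton relation `NewtonRel F s` between a polynomial `F` with `F(0) = 1` and a sequence
`s` (to be thought of as `-X F'/F = ∑_{m ≥ 1} s_m X^m`):

* `newtonRel_charpolyRev` : `det (1 - X M)` and `s_m = tr (M ^ m)`;
* `NewtonRel.seq_unique` : `F` determines `s` (any commutative ring);
* `NewtonRel.poly_unique` : `s` determines `F` (no `ℕ`-torsion);
* `newtonRel_iff_powerSeries` : the power-series form `F * ∑ s_{m+1} X^m = - F'`.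
-/
import Fermat.Agent.GJ27.LMat.Jacobi

set_option autoImplicit false
set_option linter.unusedSectionVars false

open Polynomial Matrix Finset

namespace Fermat.Agent.GJ27.LMat.Newton

open Fermat.Agent.GJ27.LMat.Jacobi

variable {R : Type*} [CommRing R]

/-- `F(0) = 1` and `(k + 1) F_{k+1} = - ∑_{i + j = k} F_i s_{j+1}`; only the values `s m`, `m ≥ 1`,
matter. -/
def NewtonRel (F : R[X]) (s : ℕ → R) : Prop :=
  F.coeff 0 = 1 ∧ ∀ k : ℕ, F.coeff (k + 1) * ((k : R) + 1) =
    - ∑ x ∈ antidiagonal k, F.coeff x.1 * s (x.2 + 1)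

theorem NewtonRel.congr {F : R[X]} {s s' : ℕ → R} (h : NewtonRel F s)
    (hs : ∀ m, 1 ≤ m → s m = s' m) : NewtonRel F s' := by
  refine ⟨h.1, fun k => ?_⟩
  rw [h.2 k]
  congr 1
  exact Finset.sum_congr rfl fun x _ => by rw [hs _ (Nat.le_add_left 1 x.2)]

theorem newtonRel_charpolyRev {n : Type*} [Fintype n] [DecidableEq n] (M : Matrix n n R) :
    NewtonRel M.charpolyRev (fun m => (M ^ m).trace) :=
  ⟨by rw [coeff_zero_eq_eval_zero, Matrix.eval_charpolyRev], fun k => newton_charpolyRev M k⟩

/-- the polynomial determines the sequence. -/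
theorem NewtonRel.seq_unique {F : R[X]} {s s' : ℕ → R} (h : NewtonRel F s) (h' : NewtonRel F s') :
    ∀ m, 1 ≤ m → s m = s' m := by
  intro m
  induction m using Nat.strong_induction_on with
  | _ m ih =>
    intro hm
    obtain ⟨k, rfl⟩ : ∃ k, m = k + 1 := ⟨m - 1, by omega⟩
    have e := (h.2 k).symm.trans (h'.2 k)
    rw [neg_inj, Finset.Nat.sum_antidiagonal_eq_sum_range_succ_mk,
      Finset.Nat.sum_antidiagonal_eq_sum_range_succ_mk, Finset.sum_range_succ',
      Finset.sum_range_succ'] at e
    simp only [Nat.sub_zero, h.1, one_mul] at e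
    have e2 : ∑ i ∈ range k, F.coeff (i + 1) * s (k - (i + 1) + 1) =
        ∑ i ∈ range k, F.coeff (i + 1) * s' (k - (i + 1) + 1) := by
      refine Finset.sum_congr rfl fun i hi => ?_
      have hi' := mem_range.mp hi
      rw [ih (k - (i + 1) + 1) (by omega) (by omega)]
    rw [e2] at e
    exact add_left_cancel e

/-- the sequence determines the polynomial (characteristic `0` domain). -/
theorem NewtonRel.poly_unique [IsDomain R] [CharZero R] {F G : R[X]} {s : ℕ → R}
    (hF : NewtonRel F s) (hG : NewtonRel G s) : F = G := by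
  ext m
  induction m using Nat.strong_induction_on with
  | _ m ih =>
    rcases Nat.eq_zero_or_pos m with rfl | hm
    · rw [hF.1, hG.1]
    · obtain ⟨k, rfl⟩ : ∃ k, m = k + 1 := ⟨m - 1, by omega⟩
      have hk : ((k : R) + 1) ≠ 0 := Nat.cast_add_one_ne_zero k
      apply mul_right_cancel₀ hk
      rw [hF.2 k, hG.2 k]
      congr 1
      refine Finset.sum_congr rfl fun x hx => ?_
      have := mem_antidiagonal.mp hx
      rw [ih x.1 (by omega)]

/-- the power-series form of the Newton relation: `F * ∑_{m ≥ 0} s_{m+1} X^m = - F'`. -/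
theorem newtonRel_iff_powerSeries (F : R[X]) (s : ℕ → R) :
    NewtonRel F s ↔ F.coeff 0 = 1 ∧
      (F : PowerSeries R) * PowerSeries.mk (fun m => s (m + 1)) =
        - ((derivative F : R[X]) : PowerSeries R) := by
  unfold NewtonRel
  refine and_congr Iff.rfl ?_
  rw [PowerSeries.ext_iff]
  refine forall_congr' fun k => ?_
  rw [PowerSeries.coeff_mul, map_neg, Polynomial.coeff_coe, coeff_derivative]
  simp only [Polynomial.coeff_coe, PowerSeries.coeff_mk]
  constructor
  · intro h
    rw [h, neg_neg]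
  · intro h
    rw [h, neg_neg]

end Fermat.Agent.GJ27.LMat.Newton
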