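/-
GATE-J27 / A5 (GJ27-LMAT), assembly (helper96).  Mathlib only.

INPUT (from A2 + A4, for the Frobenius powers `σ^n`): polynomials `L n ∈ ℤ[X]` (`n ≥ 1`) and a
sequence `t : ℕ → ℤ` (think `t m = 1 + q^m - N_m`) with the Newton relations
`- X (L n)' / (L n) = ∑_{m ≥ 1} t (n m) X^m`, `L n (0) = 1`.

OUTPUT: an integer matrix `M` of size `d = deg (L 1)` with `det M = ± lead (L 1)`,
`t m = tr (M^m)`, `L n = det (1 - X M^n)`, `L n (1) = det (1 - M^n)`; and the `ℓ`-adic growth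
`L_{m₀ m ℓ^j}(1) = ℓ^(d j) · w · L_{m₀}(1)`, `ℓ ∤ w`, for all `m` prime to `ℓ` and all `j`.
-/
import Fermat.Agent.GJ27.LMat.Newton
import Fermat.Agent.GJ27.LMat.Companion
import Fermat.Agent.GJ27.LMat.Growth

set_option autoImplicit false
set_option linter.unusedSectionVars false

open Polynomial Matrix Finset

namespace Fermat.Agent.GJ27.LMat.Main

open Fermat.Agent.GJ27.LMat.Newton Fermat.Agent.GJ27.LMat.Companion Fermat.Agent.GJ27.LMat.Growth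

theorem eval_one_charpolyRev {R : Type*} [CommRing R] {n : Type*} [Fintype n] [DecidableEq n]
    (N : Matrix n n R) : N.charpolyRev.eval 1 = (1 - N).det := by
  rw [Matrix.charpolyRev, ← Polynomial.coe_evalRingHom, RingHom.map_det]
  congr 1
  ext i j
  rw [RingHom.mapMatrix_apply, Matrix.map_apply, Matrix.sub_apply, Matrix.sub_apply,
    Matrix.smul_apply, Matrix.map_apply, Polynomial.coe_evalRingHom, eval_sub, smul_eq_mul,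
    eval_mul, eval_X, eval_C, one_mul, Matrix.one_apply, Matrix.one_apply]
  split_ifs <;> simp

/-- **A5, matrix form of the `L`-polynomials.** -/
theorem exists_matrix (L : ℕ → ℤ[X]) (t : ℕ → ℤ)
    (hL : ∀ n, 1 ≤ n → NewtonRel (L n) (fun m => t (n * m))) :
    ∃ (d : ℕ) (M : Matrix (Fin d) (Fin d) ℤ), d = (L 1).natDegree ∧
      M.det = (-1) ^ d * (L 1).leadingCoeff ∧
      (∀ m, 1 ≤ m → t m = (M ^ m).trace) ∧
      (∀ n, 1 ≤ n → L n = (M ^ n).charpolyRev) ∧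
      (∀ n, 1 ≤ n → (L n).eval 1 = (1 - M ^ n).det) := by
  obtain ⟨d, M, hd, hM, hdet⟩ := exists_matrix_charpolyRev_eq (hL 1 le_rfl).1
  have ht : ∀ m, 1 ≤ m → t m = (M ^ m).trace := by
    have h1 : NewtonRel (L 1) (fun m => t (1 * m)) := hL 1 le_rfl
    have h2 : NewtonRel (L 1) (fun m => (M ^ m).trace) := hM ▸ newtonRel_charpolyRev M
    intro m hm
    have := h1.seq_unique h2 m hm
    simpa using this
  have hLn : ∀ n, 1 ≤ n → L n = (M ^ n).charpolyRev := by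
    intro n hn
    have h1 : NewtonRel (L n) (fun m => ((M ^ n) ^ m).trace) := by
      refine (hL n hn).congr fun m hm => ?_
      rw [← pow_mul]
      exact ht (n * m) (Nat.mul_pos hn hm)
    exact h1.poly_unique (newtonRel_charpolyRev (M ^ n))
  refine ⟨d, M, hd, hdet, ht, hLn, fun n hn => ?_⟩
  rw [hLn n hn, eval_one_charpolyRev]

/-- **A5, `ℓ`-adic growth of the class numbers `h_n = L n (1)`.** -/
theorem exists_growth (L : ℕ → ℤ[X]) (t : ℕ → ℤ)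
    (hL : ∀ n, 1 ≤ n → NewtonRel (L n) (fun m => t (n * m)))
    {ℓ : ℕ} (hℓ : ℓ.Prime) (hlead : ¬ (ℓ : ℤ) ∣ (L 1).leadingCoeff) :
    ∃ m₀ : ℕ, 0 < m₀ ∧ ∀ m : ℕ, ¬ ℓ ∣ m → ∀ j : ℕ, ∃ w : ℤ, ¬ (ℓ : ℤ) ∣ w ∧
      (L (m₀ * (m * ℓ ^ j))).eval 1 =
        (ℓ : ℤ) ^ ((L 1).natDegree * j) * w * (L m₀).eval 1 := by
  obtain ⟨d, M, hd, hdet, -, -, hev⟩ := exists_matrix L t hL
  subst hd
  have hp : Prime (ℓ : ℤ) := Nat.prime_iff_prime_int.mp hℓ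
  have hM : ¬ (ℓ : ℤ) ∣ M.det := by
    rw [hdet]
    intro h
    rcases hp.dvd_or_dvd h with h1 | h1
    · have h2 := hp.dvd_of_dvd_pow h1
      rw [dvd_neg] at h2
      exact hp.not_dvd_one h2
    · exact hlead h1
  obtain ⟨m₀, hm₀, hU⟩ := exists_pow_congrOne hℓ hM
  refine ⟨m₀, hm₀, fun m hm j => ?_⟩
  obtain ⟨w, hw, h⟩ := det_one_sub_pow_growth hℓ hU hm j
  refine ⟨w, hw, ?_⟩
  have hmpos : 0 < m := Nat.pos_of_ne_zero (fun h0 => hm (h0 ▸ dvd_zero ℓ))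
  have hpos : 1 ≤ m₀ * (m * ℓ ^ j) :=
    Nat.mul_pos hm₀ (Nat.mul_pos hmpos (pow_pos hℓ.pos j))
  rw [hev _ hpos, hev _ hm₀, pow_mul, h, Fintype.card_fin]

theorem padicValInt_prime_pow' {ℓ : ℕ} (hℓ : ℓ.Prime) (k : ℕ) :
    padicValInt ℓ ((ℓ : ℤ) ^ k) = k := by
  have : Fact ℓ.Prime := ⟨hℓ⟩
  have h : ((ℓ : ℤ) ^ k) = ((ℓ ^ k : ℕ) : ℤ) := by push_cast; rfl
  rw [h, padicValInt.of_nat, padicValNat.prime_pow]

/-- **matrix form of the growth** (the A8 contract shape): for an integer matrix `M` with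
`ℓ ∤ det M` and `det (1 - M^n) ≠ 0`: `v_ℓ det (1 - M^(m₀ m ℓ^j)) = c + d j`. -/
theorem matrix_growth {n : Type*} [Fintype n] [DecidableEq n] (M : Matrix n n ℤ) {ℓ : ℕ}
    (hℓ : ℓ.Prime) (hM : ¬ (ℓ : ℤ) ∣ M.det) (hne : ∀ k, 1 ≤ k → (1 - M ^ k).det ≠ 0) :
    ∃ m₀ : ℕ, 0 < m₀ ∧ ∃ c : ℕ, ∀ m : ℕ, ¬ ℓ ∣ m → ∀ j : ℕ,
      padicValInt ℓ (1 - M ^ (m₀ * m * ℓ ^ j)).det = c + Fintype.card n * j := by
  obtain ⟨m₀, hm₀, hU⟩ := exists_pow_congrOne hℓ hM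
  refine ⟨m₀, hm₀, padicValInt ℓ (1 - M ^ m₀).det, fun m hm j => ?_⟩
  obtain ⟨w, hw, h⟩ := det_one_sub_pow_growth hℓ hU hm j
  have : Fact ℓ.Prime := ⟨hℓ⟩
  have hw0 : w ≠ 0 := fun h0 => hw (h0 ▸ dvd_zero _)
  have hℓ0 : ((ℓ : ℤ) ^ (Fintype.card n * j)) ≠ 0 := pow_ne_zero _ (by exact_mod_cast hℓ.ne_zero)
  rw [Nat.mul_assoc, pow_mul, h, padicValInt.mul (mul_ne_zero hℓ0 hw0) (hne m₀ hm₀),
    padicValInt.mul hℓ0 hw0, padicValInt.eq_zero_of_not_dvd hw, padicValInt_prime_pow' hℓ]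
  ring

/-- valuation form of the growth (given `h_n ≠ 0`). -/
theorem exists_growth_padicVal (L : ℕ → ℤ[X]) (t : ℕ → ℤ)
    (hL : ∀ n, 1 ≤ n → NewtonRel (L n) (fun m => t (n * m)))
    (hne : ∀ n, 1 ≤ n → (L n).eval 1 ≠ 0)
    {ℓ : ℕ} (hℓ : ℓ.Prime) (hlead : ¬ (ℓ : ℤ) ∣ (L 1).leadingCoeff) :
    ∃ m₀ : ℕ, 0 < m₀ ∧ ∀ m : ℕ, ¬ ℓ ∣ m → ∀ j : ℕ,
      padicValInt ℓ ((L (m₀ * (m * ℓ ^ j))).eval 1) =
        padicValInt ℓ ((L m₀).eval 1) + (L 1).natDegree * j := by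
  obtain ⟨m₀, hm₀, h⟩ := exists_growth L t hL hℓ hlead
  refine ⟨m₀, hm₀, fun m hm j => ?_⟩
  obtain ⟨w, hw, e⟩ := h m hm j
  have : Fact ℓ.Prime := ⟨hℓ⟩
  have hw0 : w ≠ 0 := fun h0 => hw (h0 ▸ dvd_zero _)
  have hℓ0 : ((ℓ : ℤ) ^ ((L 1).natDegree * j)) ≠ 0 := pow_ne_zero _ (by exact_mod_cast hℓ.ne_zero)
  rw [e, padicValInt.mul (mul_ne_zero hℓ0 hw0) (hne m₀ hm₀), padicValInt.mul hℓ0 hw0,
    padicValInt.eq_zero_of_not_dvd hw, padicValInt_prime_pow' hℓ]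
  ring

end Fermat.Agent.GJ27.LMat.Main
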