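/-
GATE-J27 / A5 (GJ27-LMAT), adapter (helper96).  Mathlib only.

From the zeta-function form to the Newton relation consumed by `Main.lean`:
if `(1 - X)(1 - Q X) Z = L` in `R⟦X⟧` (`L` a polynomial with `L(0) = 1`) and
`X Z' = Z · ∑_{m ≥ 1} N_m X^m`, then `NewtonRel L (fun m => 1 + Q^m - N m)`.
-/
import Fermat.Agent.GJ27.LMat.Newton

set_option autoImplicit false
set_option linter.unusedSectionVars false

open Finset

namespace Fermat.Agent.GJ27.LMat.Zeta

open Fermat.Agent.GJ27.LMat.Newton
open PowerSeries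

variable {R : Type*} [CommRing R]

/-- the power series `∑_{m ≥ 1} s_m X^m`. -/
noncomputable def tail (s : ℕ → R) : R⟦X⟧ := PowerSeries.mk fun m => if m = 0 then 0 else s m

theorem tail_eq_X_mul (s : ℕ → R) :
    tail s = (PowerSeries.X : R⟦X⟧) * PowerSeries.mk fun m => s (m + 1) := by
  ext m
  cases m with
  | zero => simp [tail]
  | succ m => rw [PowerSeries.coeff_succ_X_mul]; simp [tail]

theorem one_sub_mul_tail_geom (Q : R) :
    (1 - PowerSeries.C Q * PowerSeries.X) * tail (fun m => Q ^ m) =
      PowerSeries.C Q * (PowerSeries.X : R⟦X⟧) := by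
  rw [tail_eq_X_mul]
  have h : (1 - PowerSeries.C Q * PowerSeries.X) * (PowerSeries.mk fun m => Q ^ (m + 1)) =
      (PowerSeries.C Q : R⟦X⟧) := by
    ext m
    rw [sub_mul, one_mul, map_sub, mul_assoc, PowerSeries.coeff_C_mul]
    cases m with
    | zero => simp
    | succ m =>
      rw [PowerSeries.coeff_succ_X_mul, PowerSeries.coeff_mk, PowerSeries.coeff_mk,
        PowerSeries.coeff_C]
      simp only [Nat.succ_ne_zero, if_false]
      ring
  calc (1 - PowerSeries.C Q * PowerSeries.X) * (PowerSeries.X * PowerSeries.mk fun m => Q ^ (m + 1))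
      = PowerSeries.X * ((1 - PowerSeries.C Q * PowerSeries.X) *
          PowerSeries.mk fun m => Q ^ (m + 1)) := by ring
    _ = PowerSeries.C Q * PowerSeries.X := by rw [h]; ring

theorem tail_add (s s' : ℕ → R) : tail (fun m => s m + s' m) = tail s + tail s' := by
  ext m
  simp only [tail, PowerSeries.coeff_mk, map_add]
  split_ifs <;> simp

theorem tail_sub (s s' : ℕ → R) : tail (fun m => s m - s' m) = tail s - tail s' := by
  ext m
  simp only [tail, PowerSeries.coeff_mk, map_sub]
  split_ifs <;> simp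

/-- **zeta form ⟹ Newton relation.** -/
theorem newtonRel_of_zeta (Z : R⟦X⟧) (L : Polynomial R) (Q : R) (N : ℕ → R)
    (hL0 : L.coeff 0 = 1)
    (hZ : (1 - PowerSeries.X) * (1 - PowerSeries.C Q * PowerSeries.X) * Z = (L : R⟦X⟧))
    (hlog : PowerSeries.X * PowerSeries.derivative R Z = Z * tail N) :
    NewtonRel L (fun m => 1 + Q ^ m - N m) := by
  rw [newtonRel_iff_powerSeries]
  refine ⟨hL0, ?_⟩
  -- it suffices to prove the identity after multiplication by `X`
  have hX : ∀ f g : R⟦X⟧, PowerSeries.X * f = PowerSeries.X * g → f = g := by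
    intro f g h
    ext m
    have := congrArg (PowerSeries.coeff (m + 1)) h
    rwa [PowerSeries.coeff_succ_X_mul, PowerSeries.coeff_succ_X_mul] at this
  apply hX
  rw [mul_left_comm, ← tail_eq_X_mul (fun m => 1 + Q ^ m - N m), ← PowerSeries.derivative_coe,
    ← hZ]
  have h1 : tail (fun m => 1 + Q ^ m - N m) =
      tail (fun _ => (1 : R)) + tail (fun m => Q ^ m) - tail N := by
    rw [← tail_add, ← tail_sub]
  have h2 : (1 - (PowerSeries.X : R⟦X⟧)) * tail (fun _ => (1 : R)) = PowerSeries.X := by
    have := one_sub_mul_tail_geom (1 : R)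
    simpa using this
  have h3 := one_sub_mul_tail_geom Q
  have hD : PowerSeries.derivative R
      ((1 - PowerSeries.X) * (1 - PowerSeries.C Q * PowerSeries.X) * Z) =
      -((1 - PowerSeries.C Q * PowerSeries.X) * Z) -
        (1 - PowerSeries.X) * (PowerSeries.C Q * Z) +
        (1 - PowerSeries.X) * (1 - PowerSeries.C Q * PowerSeries.X) * PowerSeries.derivative R Z := by
    simp only [Derivation.leibniz, smul_eq_mul, map_sub, PowerSeries.derivative_one,
      PowerSeries.derivative_X, PowerSeries.derivative_C, zero_sub, mul_zero, mul_one, add_zero]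
    ring
  rw [hD, h1]
  linear_combination
    ((1 - PowerSeries.C Q * PowerSeries.X) * Z) * h2 + ((1 - PowerSeries.X) * Z) * h3 +
      ((1 - PowerSeries.X) * (1 - PowerSeries.C Q * PowerSeries.X)) * hlog

end Fermat.Agent.GJ27.LMat.Zeta
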