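/-
GATE-J27 / A5 (GJ27-LMAT), consumer form (helper96).  Mathlib only.

ONE call for A8: from the zeta data of all Frobenius powers
`(1 - X)(1 - q^n X) Z_n = L_n`, `X Z_n' = Z_n ∑_{m ≥ 1} N_{nm} X^m`, `L_n(0) = 1`, `L_n(1) ≠ 0`
to the `ℓ`-adic growth `v_ℓ (L_{m₀ m ℓ^j}(1)) = v_ℓ (L_{m₀}(1)) + deg (L_1) · j`
(`ℓ ∤ lead (L_1)`), plus the matrix description.
-/
import Fermat.Agent.GJ27.LMat.Main
import Fermat.Agent.GJ27.LMat.Zeta

set_option autoImplicit false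
set_option linter.unusedSectionVars false

open Finset

namespace Fermat.Agent.GJ27.LMat.Final

open Fermat.Agent.GJ27.LMat.Newton Fermat.Agent.GJ27.LMat.Zeta Fermat.Agent.GJ27.LMat.Main

/-- the zeta data of the Frobenius powers `σ^n`, `n ≥ 1`. -/
structure ZetaFamily (q : ℤ) (N : ℕ → ℤ) (L : ℕ → Polynomial ℤ) : Prop where
  coeff_zero : ∀ n, 1 ≤ n → (L n).coeff 0 = 1
  zeta : ∀ n, 1 ≤ n → ∃ Z : PowerSeries ℤ,
    (1 - PowerSeries.X) * (1 - PowerSeries.C (q ^ n) * PowerSeries.X) * Z = (L n : PowerSeries ℤ) ∧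
      PowerSeries.X * PowerSeries.derivative ℤ Z = Z * tail (fun m => N (n * m))

/-- constructor in the A8 contract shape (polynomial factor `(1 - X)(1 - q^n X)`, `mk` tail). -/
theorem ZetaFamily.of_contract (q : ℤ) (N : ℕ → ℤ) (L : ℕ → Polynomial ℤ) (Z : ℕ → PowerSeries ℤ)
    (hZ0 : ∀ n, 1 ≤ n → PowerSeries.constantCoeff (Z n) = 1)
    (hlog : ∀ n, 1 ≤ n → PowerSeries.X * PowerSeries.derivative ℤ (Z n) =
      Z n * PowerSeries.mk (fun j => if j = 0 then 0 else N (n * j)))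
    (hL : ∀ n, 1 ≤ n →
      (((1 - Polynomial.X) * (1 - Polynomial.C (q ^ n) * Polynomial.X) : Polynomial ℤ) :
        PowerSeries ℤ) * Z n = (L n : PowerSeries ℤ)) :
    ZetaFamily q N L := by
  have hZ : ∀ n, 1 ≤ n →
      (1 - PowerSeries.X) * (1 - PowerSeries.C (q ^ n) * PowerSeries.X) * Z n =
        (L n : PowerSeries ℤ) := by
    intro n hn
    rw [← hL n hn, Polynomial.coe_mul, Polynomial.coe_sub, Polynomial.coe_sub, Polynomial.coe_one,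
      Polynomial.coe_X, Polynomial.coe_mul, Polynomial.coe_C, Polynomial.coe_X]
  refine ⟨fun n hn => ?_, fun n hn => ⟨Z n, hZ n hn, hlog n hn⟩⟩
  have h := congrArg PowerSeries.constantCoeff (hZ n hn)
  rw [map_mul, map_mul, hZ0 n hn] at h
  simp at h
  rw [← h]

theorem ZetaFamily.newtonRel {q : ℤ} {N : ℕ → ℤ} {L : ℕ → Polynomial ℤ} (H : ZetaFamily q N L) :
    ∀ n, 1 ≤ n → NewtonRel (L n) (fun m => (fun k => 1 + q ^ k - N k) (n * m)) := by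
  intro n hn
  obtain ⟨Z, hZ, hlog⟩ := H.zeta n hn
  refine (newtonRel_of_zeta Z (L n) (q ^ n) (fun m => N (n * m)) (H.coeff_zero n hn) hZ
    hlog).congr fun m _ => ?_
  show 1 + (q ^ n) ^ m - N (n * m) = 1 + q ^ (n * m) - N (n * m)
  rw [pow_mul]

/-- matrix description: `N_m = 1 + q^m - tr (M^m)`, `L_n = det (1 - X M^n)`,
`L_n(1) = det (1 - M^n)`. -/
theorem ZetaFamily.exists_matrix {q : ℤ} {N : ℕ → ℤ} {L : ℕ → Polynomial ℤ}
    (H : ZetaFamily q N L) :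
    ∃ (d : ℕ) (M : Matrix (Fin d) (Fin d) ℤ), d = (L 1).natDegree ∧
      M.det = (-1) ^ d * (L 1).leadingCoeff ∧
      (∀ m, 1 ≤ m → N m = 1 + q ^ m - (M ^ m).trace) ∧
      (∀ n, 1 ≤ n → L n = (M ^ n).charpolyRev) ∧
      (∀ n, 1 ≤ n → (L n).eval 1 = (1 - M ^ n).det) := by
  obtain ⟨d, M, hd, hdet, ht, hLn, hev⟩ :=
    Main.exists_matrix L (fun k => 1 + q ^ k - N k) H.newtonRel
  refine ⟨d, M, hd, hdet, fun m hm => ?_, hLn, hev⟩
  have := ht m hm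
  linarith

/-- **`ℓ`-adic growth of the class numbers** `h_n = L_n(1)`. -/
theorem ZetaFamily.growth {q : ℤ} {N : ℕ → ℤ} {L : ℕ → Polynomial ℤ} (H : ZetaFamily q N L)
    (hne : ∀ n, 1 ≤ n → (L n).eval 1 ≠ 0)
    {ℓ : ℕ} (hℓ : ℓ.Prime) (hlead : ¬ (ℓ : ℤ) ∣ (L 1).leadingCoeff) :
    ∃ m₀ : ℕ, 0 < m₀ ∧ ∀ m : ℕ, ¬ ℓ ∣ m → ∀ j : ℕ,
      padicValInt ℓ ((L (m₀ * (m * ℓ ^ j))).eval 1) =
        padicValInt ℓ ((L m₀).eval 1) + (L 1).natDegree * j :=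
  exists_growth_padicVal L (fun k => 1 + q ^ k - N k) H.newtonRel hne hℓ hlead

end Fermat.Agent.GJ27.LMat.Final
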